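import Fermat.Agent.S17.H500.Package

/-!
# S17 / tower H, formal leaf F-END (helper924)

`end_of : QPStatement q → P.EllStatement l → P.PosStatement q l → EndStatement A`.

`ν y := sInf {N D' | deg D' = m - d ∧ cls D' = y}`; the set is nonempty by `PosStatement`
(applied to `-y`), bounded below by `N_nonneg`; Northcott for `ν` from `P.northcott`.
-/

set_option autoImplicit false

namespace Fermat.Agent.S17.H924

open Fermat.Agent.S17.H500

variable {A : Type} [AddCommGroup A]

/-- The set of naive heights of the representatives of degree `m - d` of a class. -/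
def repHeights (P : PairingPackage A) (y : A) : Set ℝ :=
  {r | ∃ D' : P.Dv, P.deg D' = P.m - P.d ∧ P.cls D' = y ∧ P.N D' = r}

/-- `ν y` : the least naive height of a representative of degree `m - d`. -/
noncomputable def nuOf (P : PairingPackage A) (y : A) : ℝ := sInf (repHeights P y)

theorem repHeights_bddBelow (P : PairingPackage A) (y : A) : BddBelow (repHeights P y) :=
  ⟨0, fun _ ⟨D', _, _, h⟩ => h ▸ P.N_nonneg D'⟩

theorem k_pos (P : PairingPackage A) : 0 < P.k := by
  have h1 := P.one_le_g
  have h2 := P.two_g_le_d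
  have h3 := P.four_d_le_m
  have h4 : (P.d : ℝ) + P.g + 1 ≤ P.m := by
    have : P.d + P.g + 1 ≤ P.m := by omega
    exact_mod_cast this
  unfold PairingPackage.k
  linarith

theorem m_pos (P : PairingPackage A) : (0 : ℝ) < P.m := by
  have h1 := P.one_le_g
  have h2 := P.two_g_le_d
  have h3 := P.four_d_le_m
  have : 0 < P.m := by omega
  exact_mod_cast this

/-- **F-END.** -/
theorem end_of (P : PairingPackage A) (q l : A → ℝ) (hqp : QPStatement q)
    (hl : P.EllStatement l) (hpos : P.PosStatement q l) : EndStatement A := by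
  obtain ⟨C₁, hC₁⟩ := hqp
  obtain ⟨-, C₂, hC₂⟩ := hl
  obtain ⟨C₃, hC₃⟩ := hpos
  -- nonemptiness of the sets of representatives
  have hne : ∀ y : A, (repHeights P y).Nonempty := by
    intro y
    obtain ⟨D', hdeg, hcls, -⟩ := hC₃ (-y)
    exact ⟨P.N D', D', hdeg, by rw [hcls, neg_neg], rfl⟩
  refine ⟨q, l, nuOf P, max C₁ C₂, P.m / P.k, C₃, div_pos (m_pos P) (k_pos P), ?_, ?_, ?_, ?_, ?_⟩
  · exact fun x y => (hC₁ x y).trans (le_max_left _ _)
  · exact fun x y => (hC₂ x y).trans (le_max_right _ _)
  · intro x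
    exact le_csInf (hne x) fun r ⟨D', _, _, h⟩ => h ▸ P.N_nonneg D'
  · intro B
    have hfin := P.northcott (P.m - P.d) (B + 1)
    refine (hfin.image P.cls).subset ?_
    intro y hy
    have hy' : nuOf P y ≤ B := hy
    have hlt : sInf (repHeights P y) < B + 1 := lt_of_le_of_lt hy' (by linarith)
    obtain ⟨r, ⟨D', hdeg, hcls, hN⟩, hr⟩ := exists_lt_of_csInf_lt (hne y) hlt
    exact ⟨D', ⟨hdeg.le, by rw [hN]; exact hr.le⟩, hcls⟩
  · intro x
    obtain ⟨D', hdeg, hcls, hN⟩ := hC₃ x
    exact (csInf_le (repHeights_bddBelow P (-x)) ⟨D', hdeg, hcls, rfl⟩).trans hN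

end Fermat.Agent.S17.H924
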