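import Fermat.Agent.S17.H500.Package
import Mathlib.Tactic

/-!
# S17 / tower H, formal leaf F-KEY (helper924)

`key : P.KeyStatement` — the self-pairing formula
`N D - δ D = -B(D,D₁)/2 - K D / 2 + (1 - d/m) N D + O(1)`.

Proof: `mov2` for `D, D₁` with `T := D + D₁` gives `Z a = D + R`, `Z a₁ = D₁ + R`, `R` disjoint
from `D + D₁`.  `adj (a, D, R)`, `e3 (a₁, E := D)` and `bez (a)`, `bez (a₁)` give
`2 δ D = K D + pr D D₁ + (d/m)(N D - N D₁) + O(1)`.
-/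

set_option autoImplicit false

namespace Fermat.Agent.S17.H924

open Fermat.Agent.S17.H500

variable {A : Type} [AddCommGroup A]

theorem m_pos' (P : PairingPackage A) : (0 : ℝ) < P.m := by
  have h1 := P.one_le_g
  have h2 := P.two_g_le_d
  have h3 := P.four_d_le_m
  have : 0 < P.m := by omega
  exact_mod_cast this

/-- **F-KEY.** -/
theorem key (P : PairingPackage A) : P.KeyStatement := by
  obtain ⟨Ca, hCa⟩ := P.adj
  obtain ⟨Ce, hCe⟩ := P.e3
  obtain ⟨Cb, hCb⟩ := P.bez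
  have hm := m_pos' P
  have hdm : (P.d : ℝ) ≤ P.m := by
    have h3 := P.four_d_le_m
    have : P.d ≤ P.m := by omega
    exact_mod_cast this
  have hd0 : (0 : ℝ) ≤ P.d := Nat.cast_nonneg _
  refine ⟨(Ca * P.d + Ce * P.d) / 2 + Cb, ?_⟩
  intro D D₁ hD hD₁ hcls hG _ hdisj
  -- moving lemma
  have hdeg : P.deg D = P.deg D₁ := by rw [hD, hD₁]
  have hle : P.deg D + 2 * P.g ≤ P.m := by
    have h3 := P.four_d_le_m
    rw [hD]; omega
  obtain ⟨R, a, a₁, hZa, hZa₁, hRT⟩ := P.mov2 D D₁ hdeg hle hcls (D + D₁)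
  have hT := (P.disj_add_left D D₁ R).1 (P.disj_symm _ _ hRT)
  have hDR : P.Disj D R := hT.1
  have hD₁R : P.Disj D₁ R := hT.2
  have hRD : P.Disj R D := P.disj_symm _ _ hDR
  have hD₁D : P.Disj D₁ D := P.disj_symm _ _ hdisj
  -- (ADJ)
  have h1 := hCa a D R hG hZa hDR
  -- (E3) with `a₁`, `E := D`
  have hdisjZ : P.Disj (D₁ + R) D := (P.disj_add_left D₁ R D).2 ⟨hD₁D, hRD⟩
  have h2 := hCe a₁ D (by rw [hZa₁]; exact hdisjZ)
  rw [hZa₁, P.pr_add D₁ R D hdisjZ] at h2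
  -- (BEZ)
  have h3 := hCb a
  have h4 := hCb a₁
  rw [hZa, P.N_add] at h3
  rw [hZa₁, P.N_add] at h4
  rw [hD] at h1 h2
  have hCb0 : 0 ≤ Cb := le_trans (abs_nonneg _) h3
  -- notation
  set r : ℝ := (P.d : ℝ) / P.m with hr
  have hrm : r * P.m = P.d := by rw [hr]; field_simp
  have hr0 : 0 ≤ r := div_nonneg hd0 hm.le
  have hr1 : r ≤ 1 := (div_le_one hm).2 hdm
  set e3 : ℝ := P.N D + P.N R - P.m * P.ht a with he3
  set e4 : ℝ := P.N D₁ + P.N R - P.m * P.ht a₁ with he4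
  have hre3 : |r * e3| ≤ Cb := by
    rw [abs_mul, abs_of_nonneg hr0]
    calc r * |e3| ≤ 1 * |e3| := mul_le_mul_of_nonneg_right hr1 (abs_nonneg _)
      _ = |e3| := one_mul _
      _ ≤ Cb := h3
  have hre4 : |r * e4| ≤ Cb := by
    rw [abs_mul, abs_of_nonneg hr0]
    calc r * |e4| ≤ 1 * |e4| := mul_le_mul_of_nonneg_right hr1 (abs_nonneg _)
      _ = |e4| := one_mul _
      _ ≤ Cb := h4
  -- `d * ht a = r * (N D + N R - e3)` etc.
  have ha : (P.d : ℝ) * P.ht a = r * (P.N D + P.N R) - r * e3 := by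
    rw [← hrm, he3]; ring
  have ha₁ : (P.d : ℝ) * P.ht a₁ = r * (P.N D₁ + P.N R) - r * e4 := by
    rw [← hrm, he4]; ring
  rw [ha] at h1
  rw [ha₁] at h2
  have hB : P.B D D₁ = P.pr D₁ D - r * P.N D₁ - r * P.N D := by
    unfold PairingPackage.B
    rw [hD, hD₁, P.pr_symm D D₁]
  rw [hB]
  rw [abs_le] at h1 h2 hre3 hre4 ⊢
  constructor <;> nlinarith [h1.1, h1.2, h2.1, h2.2, hre3.1, hre3.2, hre4.1, hre4.2]

end Fermat.Agent.S17.H924
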